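import Fermat.Agent.A2.H48.TwoVal

/-!
# Row 38, WALL-p, (S2), leaf MERGE — Mathlib-only core (helper575)

Weak approximation for two distinct valuation rings `V₁ ≠ V₂` of a field `F` with a common
uniformiser `π` (both "archimedean": every element is integral after multiplication by a power
of `π`):  if `f = g₁ ^ p * u₁ = g₂ ^ p * u₂` with `u_i ∈ 1 + r V_i`, `r ∈ π V₁ ∩ π V₂`, then
`f = h ^ p * u` with ONE `h` and `u ∈ (1 + r V₁) ∩ (1 + r V₂)`.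

Proof: `e := 1 / (1 + c ^ n)` (`c ∈ 𝔪₁`, `c⁻¹ ∈ 𝔪₂`) is `≡ 1` to high order at `V₁` and `≡ 0` to
high order at `V₂`; `h := e g₁ + (1 - e) g₂` has `h / g_i ∈ 1 + r V_i`.
-/

set_option autoImplicit false

namespace Fermat.Agent.Ribet.H575

open Fermat.Agent.A2.H48

variable {F : Type*} [Field F]

/-- `u ∈ 1 + r V` (same shape as `Ribet.H220.OneMod`). -/
def OneAdd (V : ValuationSubring F) (r u : F) : Prop :=
  ∃ y ∈ V, u = 1 + r * y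

section OneAdd

variable {V : ValuationSubring F} {r u u' : F}

theorem oneAdd_one (V : ValuationSubring F) (r : F) : OneAdd V r 1 :=
  ⟨0, zero_mem _, by rw [mul_zero, add_zero]⟩

theorem OneAdd.mul (hr : r ∈ V) (h : OneAdd V r u) (h' : OneAdd V r u') :
    OneAdd V r (u * u') := by
  obtain ⟨y, hy, rfl⟩ := h
  obtain ⟨y', hy', rfl⟩ := h'
  refine ⟨y + y' + r * (y * y'), add_mem (add_mem hy hy') (mul_mem hr (mul_mem hy hy')), ?_⟩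
  ring

theorem OneAdd.pow (hr : r ∈ V) (h : OneAdd V r u) (n : ℕ) : OneAdd V r (u ^ n) := by
  induction n with
  | zero => rw [pow_zero]; exact oneAdd_one V r
  | succ n ih => rw [pow_succ]; exact ih.mul hr h

theorem OneAdd.val_eq_one (hr : V.valuation r < 1) (h : OneAdd V r u) :
    V.valuation u = 1 := by
  obtain ⟨y, hy, rfl⟩ := h
  refine Valuation.map_one_add_of_lt _ ?_
  rw [map_mul]
  calc V.valuation r * V.valuation y ≤ V.valuation r * 1 :=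
        mul_le_mul_right ((V.valuation_le_one_iff y).2 hy) _
    _ < 1 := by rw [mul_one]; exact hr

theorem OneAdd.ne_zero (hr : V.valuation r < 1) (h : OneAdd V r u) : u ≠ 0 := by
  intro h0
  have := h.val_eq_one hr
  rw [h0, map_zero] at this
  exact zero_ne_one this

theorem OneAdd.inv (hr : V.valuation r < 1) (h : OneAdd V r u) : OneAdd V r u⁻¹ := by
  have hu1 := h.val_eq_one hr
  have hu0 := h.ne_zero hr
  obtain ⟨y, hy, hu⟩ := h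
  have huinv : u⁻¹ ∈ V := by
    rw [← V.valuation_le_one_iff, map_inv₀, hu1, inv_one]
  refine ⟨-(y * u⁻¹), neg_mem (mul_mem hy huinv), ?_⟩
  have h1 : u * (1 + r * -(y * u⁻¹)) = 1 := by
    have h2 : u * (1 + r * -(y * u⁻¹)) = u - r * y * (u * u⁻¹) := by ring
    rw [h2, mul_inv_cancel₀ hu0, mul_one, hu]
    ring
  exact (eq_inv_of_mul_eq_one_right h1).symm ▸ rfl

end OneAdd

section Two

variable {V₁ V₂ : ValuationSubring F} {ϖ : F}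

/-- An element `≡ 1` to order `T` at `V₁` and `≡ 0` to order `T` at `V₂`. -/
theorem exists_idem_approx (h₁ : IsUnif V₁ ϖ) (h₂ : IsUnif V₂ ϖ) (hne : V₁ ≠ V₂) (T : ℕ) :
    ∃ e : F, V₁.valuation (1 - e) ≤ V₁.valuation ϖ ^ T ∧
      V₂.valuation e ≤ V₂.valuation ϖ ^ T := by
  obtain ⟨c, hc0, hc1, hc2⟩ := exists_separating h₁ h₂ hne
  set n := T + 1 with hn
  have hcn1 : V₁.valuation (c ^ n) < 1 := by
    rw [map_pow]; exact pow_lt_one₀ zero_le hc1 (by omega)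
  have hcn2 : V₂.valuation ((c⁻¹) ^ n) < 1 := by
    rw [map_pow]; exact pow_lt_one₀ zero_le hc2 (by omega)
  have hu1 : V₁.valuation (1 + c ^ n) = 1 := Valuation.map_one_add_of_lt _ hcn1
  have hu2 : V₂.valuation (1 + (c⁻¹) ^ n) = 1 := Valuation.map_one_add_of_lt _ hcn2
  have hne1 : 1 + c ^ n ≠ 0 := by
    intro h; rw [h, map_zero] at hu1; exact zero_ne_one hu1
  have hne2 : 1 + (c⁻¹) ^ n ≠ 0 := by
    intro h; rw [h, map_zero] at hu2; exact zero_ne_one hu2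
  have hcn0 : c ^ n ≠ 0 := pow_ne_zero _ hc0
  have hπ1 : V₁.valuation ϖ ≤ 1 := h₁.val_lt_one.le
  have hπ2 : V₂.valuation ϖ ≤ 1 := h₂.val_lt_one.le
  refine ⟨(1 + c ^ n)⁻¹, ?_, ?_⟩
  · have hee : 1 - (1 + c ^ n)⁻¹ = c ^ n * (1 + c ^ n)⁻¹ := by
      field_simp
      ring
    rw [hee, map_mul, map_inv₀, hu1, inv_one, mul_one, map_pow]
    calc V₁.valuation c ^ n ≤ V₁.valuation ϖ ^ n :=
          pow_le_pow_left₀ zero_le (h₁.val_le_of_lt_one hc1) n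
      _ ≤ V₁.valuation ϖ ^ T := pow_le_pow_of_le_one zero_le hπ1 (by omega)
  · have hee2 : (1 + c ^ n)⁻¹ = (c⁻¹) ^ n * (1 + (c⁻¹) ^ n)⁻¹ := by
      have h4 : c ^ n * (1 + (c ^ n)⁻¹) = 1 + c ^ n := by
        rw [mul_add, mul_one, mul_inv_cancel₀ hcn0, add_comm]
      rw [inv_pow, ← mul_inv, h4]
    rw [hee2, map_mul, map_inv₀, hu2, inv_one, mul_one, map_pow]
    calc V₂.valuation c⁻¹ ^ n ≤ V₂.valuation ϖ ^ n :=
          pow_le_pow_left₀ zero_le (h₂.val_le_of_lt_one hc2) n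
      _ ≤ V₂.valuation ϖ ^ T := pow_le_pow_of_le_one zero_le hπ2 (by omega)

/-- If `ϖ ^ n * d ∈ V` and `n ≤ T`, `v(a) ≤ v(ϖ) ^ T`, then `a * d ∈ V`. -/
theorem mul_mem_of_pow_mul_mem {V : ValuationSubring F} (h : IsUnif V ϖ) {a d : F} {n T : ℕ}
    (hnT : n ≤ T) (hd : ϖ ^ n * d ∈ V) (ha : V.valuation a ≤ V.valuation ϖ ^ T) :
    a * d ∈ V := by
  rw [← V.valuation_le_one_iff, map_mul]
  have h1 : V.valuation ϖ ^ n * V.valuation d ≤ 1 := by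
    have := (V.valuation_le_one_iff _).2 hd
    rwa [map_mul, map_pow] at this
  calc V.valuation a * V.valuation d ≤ V.valuation ϖ ^ T * V.valuation d :=
        mul_le_mul_left ha _
    _ ≤ V.valuation ϖ ^ n * V.valuation d :=
        mul_le_mul_left (pow_le_pow_of_le_one zero_le h.val_lt_one.le hnT) _
    _ ≤ 1 := h1

/-- **MERGE, core.** -/
theorem merge_core (h₁ : IsUnif V₁ ϖ) (h₂ : IsUnif V₂ ϖ) (hne : V₁ ≠ V₂)
    (ha₁ : ∀ x : F, ∃ n : ℕ, ϖ ^ n * x ∈ V₁) (ha₂ : ∀ x : F, ∃ n : ℕ, ϖ ^ n * x ∈ V₂)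
    (p : ℕ) (r f : F) (hr : r ≠ 0) (hr₁ : r * ϖ⁻¹ ∈ V₁) (hr₂ : r * ϖ⁻¹ ∈ V₂)
    (g₁ u₁ : F) (hg₁ : g₁ ≠ 0) (hf₁ : f = g₁ ^ p * u₁) (hu₁ : OneAdd V₁ r u₁)
    (g₂ u₂ : F) (hg₂ : g₂ ≠ 0) (hf₂ : f = g₂ ^ p * u₂) (hu₂ : OneAdd V₂ r u₂) :
    ∃ h u : F, h ≠ 0 ∧ f = h ^ p * u ∧ OneAdd V₁ r u ∧ OneAdd V₂ r u := by
  have hrv₁ : V₁.valuation r < 1 := h₁.mul_inv_mem_iff.1 hr₁
  have hrv₂ : V₂.valuation r < 1 := h₂.mul_inv_mem_iff.1 hr₂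
  have hrV₁ : r ∈ V₁ := (V₁.valuation_le_one_iff r).1 hrv₁.le
  have hrV₂ : r ∈ V₂ := (V₂.valuation_le_one_iff r).1 hrv₂.le
  obtain ⟨n₁, hn₁⟩ := ha₁ ((g₂ - g₁) * (g₁ * r)⁻¹)
  obtain ⟨n₂, hn₂⟩ := ha₂ ((g₁ - g₂) * (g₂ * r)⁻¹)
  obtain ⟨e, he₁, he₂⟩ := exists_idem_approx h₁ h₂ hne (max n₁ n₂)
  have hz₁ : (1 - e) * ((g₂ - g₁) * (g₁ * r)⁻¹) ∈ V₁ :=
    mul_mem_of_pow_mul_mem h₁ (le_max_left n₁ n₂) hn₁ he₁
  have hz₂ : e * ((g₁ - g₂) * (g₂ * r)⁻¹) ∈ V₂ :=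
    mul_mem_of_pow_mul_mem h₂ (le_max_right n₁ n₂) hn₂ he₂
  set z₁ := (1 - e) * ((g₂ - g₁) * (g₁ * r)⁻¹) with hz₁def
  set z₂ := e * ((g₁ - g₂) * (g₂ * r)⁻¹) with hz₂def
  set h := g₁ + (1 - e) * (g₂ - g₁) with hh
  have hw₁ : OneAdd V₁ r (1 + r * z₁) := ⟨z₁, hz₁, rfl⟩
  have hw₂ : OneAdd V₂ r (1 + r * z₂) := ⟨z₂, hz₂, rfl⟩
  have hh₁ : h = g₁ * (1 + r * z₁) := by
    rw [hh, hz₁def]
    field_simp
  have hh₂ : h = g₂ * (1 + r * z₂) := by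
    rw [hh, hz₂def]
    field_simp
    ring
  have hw₁0 := hw₁.ne_zero hrv₁
  have hw₂0 := hw₂.ne_zero hrv₂
  have hh0 : h ≠ 0 := by rw [hh₁]; exact mul_ne_zero hg₁ hw₁0
  have hhp0 : h ^ p ≠ 0 := pow_ne_zero _ hh0
  refine ⟨h, f * (h ^ p)⁻¹, hh0, ?_, ?_, ?_⟩
  · field_simp
  · have e1 : f * (h ^ p)⁻¹ = u₁ * ((1 + r * z₁)⁻¹) ^ p := by
      rw [hf₁, hh₁, mul_pow, inv_pow]
      have := pow_ne_zero p hg₁
      have := pow_ne_zero p hw₁0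
      field_simp
    rw [e1]
    exact hu₁.mul hrV₁ ((hw₁.inv hrv₁).pow hrV₁ p)
  · have e2 : f * (h ^ p)⁻¹ = u₂ * ((1 + r * z₂)⁻¹) ^ p := by
      rw [hf₂, hh₂, mul_pow, inv_pow]
      have := pow_ne_zero p hg₂
      have := pow_ne_zero p hw₂0
      field_simp
    rw [e2]
    exact hu₂.mul hrV₂ ((hw₂.inv hrv₂).pow hrV₂ p)

end Two

end Fermat.Agent.Ribet.H575
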