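import Fermat.Agent.Ribet.H220.S2Level
import Fermat.Agent.Ribet.H575.MergeCore

/-!
# Row 38, WALL-p, (S2), leaf MERGE (helper575)

`merge : H220.MergeStatement` (VERBATIM), from the Mathlib-only core `H575.merge_core`.
-/

set_option autoImplicit false

namespace Fermat.Agent.Ribet.H575

open Fermat.Agent.Ribet.H220

/-- **MERGE** (`Ribet/H220/S2Level.lean`, verbatim). -/
theorem merge : MergeStatement := by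
  intro F _ V₁ V₂ π h₁ h₂ hne ha₁ ha₂ p r f hr hr₁ hr₂ hD₁ hD₂
  obtain ⟨g₁, u₁, hg₁, hf₁, y₁, hy₁, hu₁⟩ := hD₁
  obtain ⟨g₂, u₂, hg₂, hf₂, y₂, hy₂, hu₂⟩ := hD₂
  obtain ⟨h, u, hh0, hf, ⟨z₁, hz₁, e₁⟩, ⟨z₂, hz₂, e₂⟩⟩ :=
    merge_core h₁ h₂ hne ha₁ ha₂ p r f hr hr₁ hr₂ g₁ u₁ hg₁ hf₁ ⟨y₁, hy₁, hu₁⟩
      g₂ u₂ hg₂ hf₂ ⟨y₂, hy₂, hu₂⟩
  exact ⟨h, u, hh0, hf, ⟨z₁, hz₁, e₁⟩, ⟨z₂, hz₂, e₂⟩⟩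

end Fermat.Agent.Ribet.H575
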